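import Fermat.Agent.Christol.Main

/-!
# Consequences of Christol's theorem

Termwise products and subsequences along arithmetic progressions of algebraic series are algebraic;
the series of Thue and Morse is algebraic and `∑ X ^ k!` is not.
-/

set_option autoImplicit false
set_option linter.style.haveILetI false

noncomputable section

open Polynomial

namespace FA.Christol

variable {F : Type*} [Field F] [Fintype F]

local notation "q" => Fintype.card F

/-- The `q`-kernel as a set of sequences. -/
def seqKernel (f : PowerSeries F) : Set (ℕ → F) :=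
  {s | ∃ k r : ℕ, r < q ^ k ∧ s = fun n => PowerSeries.coeff (q ^ k * n + r) f}

theorem seqKernel_finite_iff (f : PowerSeries F) :
    (seqKernel f).Finite ↔ (kernel f).Finite := by
  have he : kernel f = PowerSeries.mk '' seqKernel f := by
    ext g
    constructor
    · rintro ⟨k, r, hr, rfl⟩; exact ⟨_, ⟨k, r, hr, rfl⟩, rfl⟩
    · rintro ⟨_, ⟨k, r, hr, rfl⟩, rfl⟩; exact ⟨k, r, hr, rfl⟩
  rw [he, Set.finite_image_iff]
  exact fun s _ t _ h => funext fun n => by simpa using congrArg (PowerSeries.coeff n) h

/-- **Furstenberg**: termwise products. -/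
theorem isAlgebraic_hadamard {f g : PowerSeries F} (hf : IsAlgebraic F[X] f)
    (hg : IsAlgebraic F[X] g) :
    IsAlgebraic F[X] (PowerSeries.mk fun n => PowerSeries.coeff n f * PowerSeries.coeff n g) := by
  rw [christol] at *
  refine ((hf.prod hg).image fun uv : PowerSeries F × PowerSeries F =>
    PowerSeries.mk fun n => PowerSeries.coeff n uv.1 * PowerSeries.coeff n uv.2).subset ?_
  rintro _ ⟨k, r, hr, rfl⟩
  refine ⟨(PowerSeries.mk fun n => PowerSeries.coeff (q ^ k * n + r) f,
    PowerSeries.mk fun n => PowerSeries.coeff (q ^ k * n + r) g),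
    ⟨⟨k, r, hr, rfl⟩, ⟨k, r, hr, rfl⟩⟩, ?_⟩
  ext n; simp

/-- Arithmetic progressions. -/
theorem isAlgebraic_progression {f : PowerSeries F} (hf : IsAlgebraic F[X] f) (a b : ℕ) :
    IsAlgebraic F[X] (PowerSeries.mk fun n => PowerSeries.coeff (a * n + b) f) := by
  rw [christol] at *
  refine ((hf.prod (Set.finite_le_nat (a + b))).image fun us : PowerSeries F × ℕ =>
    PowerSeries.mk fun n => PowerSeries.coeff (a * n + us.2) us.1).subset ?_
  rintro _ ⟨k, r, hr, rfl⟩
  have hpos : 0 < q ^ k := pow_pos Fintype.card_pos _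
  refine ⟨(PowerSeries.mk fun n => PowerSeries.coeff (q ^ k * n + (a * r + b) % q ^ k) f,
    (a * r + b) / q ^ k), ⟨⟨k, _, Nat.mod_lt _ hpos, rfl⟩, ?_⟩, ?_⟩
  · refine Nat.div_le_of_le_mul ?_
    have h1 : a * r ≤ a * q ^ k := Nat.mul_le_mul_left a hr.le
    have h2 : b ≤ b * q ^ k := Nat.le_mul_of_pos_right _ hpos
    nlinarith
  · ext n
    simp only [PowerSeries.coeff_mk]
    congr 2
    have := Nat.div_add_mod (a * r + b) (q ^ k)
    linarith

/-- The sequence of Thue and Morse. -/
def thueMorse (n : ℕ) : ZMod 2 := ((Nat.digits 2 n).sum : ℕ)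

theorem thueMorse_two_mul_add (n b : ℕ) (hb : b < 2) :
    thueMorse (2 * n + b) = thueMorse n + b := by
  rcases Nat.eq_zero_or_pos (2 * n + b) with h | h
  · obtain ⟨rfl, rfl⟩ : n = 0 ∧ b = 0 := by omega
    simp [thueMorse]
  · rw [thueMorse, Nat.digits_def' (by omega) h, List.sum_cons,
      show (2 * n + b) % 2 = b by omega, show (2 * n + b) / 2 = n by omega, Nat.cast_add, add_comm]
    rfl

theorem thueMorse_block (k : ℕ) : ∀ n r : ℕ, r < 2 ^ k →
    thueMorse (2 ^ k * n + r) = thueMorse n + thueMorse r := by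
  induction k with
  | zero => intro n r hr; obtain rfl : r = 0 := by simpa using hr
            simp [thueMorse]
  | succ k ih =>
    intro n r hr
    rw [pow_succ] at hr
    rw [show 2 ^ (k + 1) * n + r = 2 * (2 ^ k * n + r / 2) + r % 2 by
        rw [pow_succ]; have := Nat.div_add_mod r 2; linarith,
      thueMorse_two_mul_add _ _ (Nat.mod_lt _ two_pos), ih _ _ (by omega), add_assoc,
      ← thueMorse_two_mul_add _ _ (Nat.mod_lt _ two_pos), Nat.div_add_mod]

/-- **The series of Thue and Morse is algebraic.** -/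
theorem isAlgebraic_thueMorse : IsAlgebraic (ZMod 2)[X] (PowerSeries.mk thueMorse) := by
  haveI : Fact (Nat.Prime 2) := ⟨Nat.prime_two⟩
  rw [christol]
  refine (Set.finite_range fun c : ZMod 2 => PowerSeries.mk fun n => thueMorse n + c).subset ?_
  rintro _ ⟨k, r, hr, rfl⟩
  rw [ZMod.card] at hr ⊢
  refine ⟨thueMorse r, ?_⟩
  ext n
  simp [thueMorse_block k n r hr]

open scoped Classical in
/-- The series `∑ X ^ k!`. -/
def factorialSeries (F : Type*) [Field F] : PowerSeries F :=
  PowerSeries.mk fun n => if ∃ j : ℕ, n = j.factorial then 1 else 0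

/-- **`∑ X ^ k!` is transcendental.** -/
theorem transcendental_factorialSeries : Transcendental F[X] (factorialSeries F) := by
  classical
  intro halg
  rw [christol] at halg
  have key : ∀ k l : ℕ, k < l →
      (PowerSeries.mk fun n => PowerSeries.coeff (q ^ k * n + 0) (factorialSeries F)) ≠
        PowerSeries.mk fun n => PowerSeries.coeff (q ^ l * n + 0) (factorialSeries F) := by
    intro k l hkl he
    obtain ⟨j, hj⟩ : ∃ j : ℕ, j = q ^ l := ⟨_, rfl⟩
    have hq : 1 < q := Fintype.one_lt_card
    have hdvd : q ^ k ∣ j.factorial :=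
      (pow_dvd_pow q hkl.le).trans (Nat.dvd_factorial (pow_pos (by omega) _) hj.ge)
    obtain ⟨m, hm⟩ := hdvd
    have h1 := congrArg (PowerSeries.coeff m) he
    simp only [PowerSeries.coeff_mk, add_zero, factorialSeries] at h1
    rw [if_pos ⟨j, hm.symm⟩] at h1
    split_ifs at h1 with h2
    swap
    · exact one_ne_zero h1
    obtain ⟨i, hi⟩ := h2
    have hfac : i.factorial = j.factorial * q ^ (l - k) := by
      rw [← hi, hm, show q ^ l = q ^ k * q ^ (l - k) by rw [← pow_add, Nat.add_sub_cancel' hkl.le]]
      ring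
    have hji : j < i := by
      by_contra h
      have h3 : i.factorial ≤ j.factorial := Nat.factorial_le (not_lt.1 h)
      have h4 : j.factorial * 2 ≤ j.factorial * q ^ (l - k) :=
        Nat.mul_le_mul_left _ (hq.trans_le (Nat.le_self_pow (by omega) _))
      have := j.factorial_pos
      omega
    have h5 : (j + 1).factorial ∣ i.factorial := Nat.factorial_dvd_factorial hji
    rw [hfac, Nat.factorial_succ, mul_comm (j + 1)] at h5
    have h6 : j + 1 ≤ q ^ (l - k) := Nat.le_of_dvd (pow_pos (by omega) _)
      (Nat.dvd_of_mul_dvd_mul_left j.factorial_pos h5)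
    have h7 : q ^ (l - k) ≤ j := hj ▸ Nat.pow_le_pow_right (by omega) (Nat.sub_le l k)
    omega
  refine Set.infinite_range_of_injective (f := fun k : ℕ =>
    PowerSeries.mk fun n => PowerSeries.coeff (q ^ k * n + 0) (factorialSeries F))
    (fun k l he => ?_) (halg.subset ?_)
  · rcases lt_trichotomy k l with h | h | h
    · exact absurd he (key k l h)
    · exact h
    · exact absurd he.symm (key l k h)
  · rintro _ ⟨k, rfl⟩
    exact ⟨k, 0, pow_pos Fintype.card_pos _, rfl⟩

end FA.Christol
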