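import Fermat.Agent.Christol.Section

/-!
# Christol's theorem

A power series over a finite field is algebraic over the polynomials iff its `q`-kernel is finite.
If it is finite the powers `f ^ q ^ k`, `k ≤ m`, lie in the span of `m` series, so are dependent;
conversely a relation `∑ Aᵢ f ^ q ^ i = 0` with `A₀ ≠ 0` gives a finite set closed under the
operators `sect r`.
-/

set_option autoImplicit false
set_option linter.style.haveILetI false

noncomputable section

open Polynomial

namespace FA.Christol

variable {F : Type*} [Field F] [Fintype F]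

local notation "q" => Fintype.card F

omit [Fintype F] in
theorem algebraMap_eq_coe (A : F[X]) : algebraMap F[X] (PowerSeries F) A = (A : PowerSeries F) := by
  rw [PowerSeries.algebraMap_apply', Algebra.algebraMap_self, PowerSeries.map_id]
  rfl

theorem one_lt_card : 1 < q := Fintype.one_lt_card

theorem sum_pow_card_pow {R : Type*} [CommRing R] [Algebra F R] {ι : Type*} (s : Finset ι)
    (f : ι → R) (k : ℕ) : (∑ i ∈ s, f i) ^ q ^ k = ∑ i ∈ s, f i ^ q ^ k := by
  rcases subsingleton_or_nontrivial R with hR | hR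
  · exact Subsingleton.elim _ _
  obtain ⟨p, hp⟩ := CharP.exists F
  obtain ⟨⟨n, hn⟩, hprime, hcard⟩ := FiniteField.card F p
  haveI := Fact.mk hprime
  haveI : CharP R p := charP_of_injective_algebraMap (algebraMap F R).injective p
  haveI : ExpChar R p := ExpChar.prime hprime
  rw [hcard, ← pow_mul]
  exact sum_pow_char_pow p _ _ _

/-- **A finite kernel gives algebraicity.** -/
theorem isAlgebraic_of_finite_kernel {f : PowerSeries F} (h : (kernel f).Finite) :
    IsAlgebraic F[X] f := by
  classical
  haveI := h.fintype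
  have hstep : ∀ k : ℕ, ∀ g ∈ kernel f,
      g ^ q ^ k ∈ Submodule.span F[X] ((fun g : PowerSeries F => g ^ q ^ (k + 1)) '' kernel f) := by
    intro k g hg
    rw [eq_sum_sect g, sum_pow_card_pow]
    refine Submodule.sum_mem _ fun r hr => ?_
    rw [mul_pow, ← pow_mul (sect r g), ← pow_succ', ← Polynomial.coe_X, ← Polynomial.coe_pow,
      ← Polynomial.coe_pow, ← algebraMap_eq_coe, ← Algebra.smul_def]
    exact Submodule.smul_mem _ _ (Submodule.subset_span
      ⟨_, sect_mem_kernel hg (Finset.mem_range.1 hr), rfl⟩)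
  have hchain : ∀ j k : ℕ, ∀ g ∈ kernel f,
      g ^ q ^ k ∈ Submodule.span F[X] ((fun g : PowerSeries F => g ^ q ^ (k + j)) '' kernel f) := by
    intro j
    induction j with
    | zero => exact fun k g hg => Submodule.subset_span ⟨g, hg, rfl⟩
    | succ j ih =>
      intro k g hg
      refine Submodule.span_le.2 ?_ (ih k g hg)
      rintro _ ⟨g', hg', rfl⟩
      exact hstep (k + j) g' hg'
  set m := Fintype.card (kernel f)
  set W : Set (PowerSeries F) := (fun g : PowerSeries F => g ^ q ^ m) '' kernel f
  have hdep : ¬ LinearIndependent F[X] fun i : Fin (m + 1) => f ^ q ^ (i : ℕ) := fun hli => by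
    have hle := linearIndependent_le_span' _ hli W (by
      rintro _ ⟨i, rfl⟩
      have := hchain (m - i) i f (mem_kernel_self f)
      rwa [Nat.add_sub_cancel' (Nat.le_of_lt_succ i.2)] at this)
    rw [Cardinal.mk_fintype, Fintype.card_fin, Nat.cast_le] at hle
    have hW : Fintype.card W ≤ m := Fintype.card_le_of_surjective
      (fun g : kernel f => (⟨g.1 ^ q ^ m, g.1, g.2, rfl⟩ : W))
      fun ⟨_, g, hg, rfl⟩ => ⟨⟨g, hg⟩, rfl⟩
    omega
  obtain ⟨c, hc, i, hi⟩ := Fintype.not_linearIndependent_iff.1 hdep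
  refine ⟨∑ j, Polynomial.C (c j) * X ^ q ^ (j : ℕ), fun h0 => hi ?_, ?_⟩
  · have hcoef := congrArg (fun P : F[X][X] => P.coeff (q ^ (i : ℕ))) h0
    simp only [finsetSum_coeff, coeff_C_mul_X_pow, coeff_zero] at hcoef
    rwa [Finset.sum_eq_single i (fun j _ hj => if_neg fun e => hj (Fin.ext
      (Nat.pow_right_injective one_lt_card e.symm))) (fun hni => absurd (Finset.mem_univ _) hni),
      if_pos rfl] at hcoef
  · rw [map_sum, ← hc]
    exact Finset.sum_congr rfl fun j _ => by rw [map_mul, aeval_C, aeval_X_pow, Algebra.smul_def]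

/-- Some relation between the powers `f ^ q ^ i`. -/
theorem exists_relation {f : PowerSeries F} (h : IsAlgebraic F[X] f) :
    ∃ (n : ℕ) (A : ℕ → F[X]), (∃ i < n, A i ≠ 0) ∧
      ∑ i ∈ Finset.range n, (A i : PowerSeries F) * f ^ q ^ i = 0 := by
  classical
  obtain ⟨a, ha, hint⟩ := h.exists_integral_multiple
  obtain ⟨s, hs⟩ := hint.fg_adjoin_singleton
  have hdep : ¬ LinearIndependent F[X] fun i : Fin (s.card + 1) => (a • f) ^ q ^ (i : ℕ) := fun hli => by
    have hle := linearIndependent_le_span' _ hli (s : Set (PowerSeries F)) (by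
      rintro _ ⟨i, rfl⟩
      rw [hs]
      exact pow_mem (Algebra.self_mem_adjoin_singleton _ _) _)
    rw [Cardinal.mk_fintype, Fintype.card_fin, Nat.cast_le] at hle
    simp at hle
  obtain ⟨c, hc, i, hi⟩ := Fintype.not_linearIndependent_iff.1 hdep
  refine ⟨s.card + 1, fun j => if hj : j < s.card + 1 then c ⟨j, hj⟩ * a ^ q ^ j else 0,
    ⟨i, i.2, ?_⟩, ?_⟩
  · simp only [dif_pos i.2]
    exact mul_ne_zero hi (pow_ne_zero _ ha)
  · rw [Finset.sum_range, ← hc]
    refine Finset.sum_congr rfl fun j _ => ?_
    show ((if hj : (j : ℕ) < s.card + 1 then c ⟨j, hj⟩ * a ^ q ^ (j : ℕ) else 0 : F[X]) : PowerSeries F)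
      * f ^ q ^ (j : ℕ) = _
    rw [dif_pos j.2, Algebra.smul_def, Algebra.smul_def, mul_pow, ← map_pow, ← algebraMap_eq_coe,
      map_mul, mul_assoc]

/-- `sect` of a polynomial. -/
def psect (r : ℕ) (A : F[X]) : F[X] :=
  ∑ j ∈ Finset.range (A.natDegree / q + 1), monomial j (A.coeff (q * j + r))

theorem natDegree_psect_le (r : ℕ) (A : F[X]) : (psect r A).natDegree ≤ A.natDegree / q :=
  natDegree_sum_le_of_forall_le _ _ fun _ hj =>
    (natDegree_monomial_le _).trans (Nat.le_of_lt_succ (Finset.mem_range.1 hj))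

theorem coe_psect (r : ℕ) (A : F[X]) :
    (psect r A : PowerSeries F) = sect r (A : PowerSeries F) := by
  ext n
  rw [coeff_sect, Polynomial.coeff_coe, Polynomial.coeff_coe, psect, finsetSum_coeff]
  simp only [coeff_monomial, Finset.sum_ite_eq', Finset.mem_range]
  split_ifs with hn
  · rfl
  · refine (coeff_eq_zero_of_natDegree_lt ?_).symm
    have h1 : A.natDegree < q * (A.natDegree / q + 1) := by
      have := Nat.lt_mul_div_succ A.natDegree (Fintype.card_pos (α := F))
      linarith
    have := Nat.mul_le_mul_left q (not_lt.1 hn)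
    omega

theorem sect_mul_pow {r : ℕ} (hr : r < q) (A : F[X]) (f : PowerSeries F) (i : ℕ) :
    sect r ((A : PowerSeries F) * f ^ q ^ (i + 1)) = (psect r A : PowerSeries F) * f ^ q ^ i := by
  rw [pow_succ, pow_mul, mul_comm, sect_pow_mul hr, coe_psect, mul_comm]

theorem exists_psect_ne_zero {A : F[X]} (h : A ≠ 0) : ∃ r < q, psect r A ≠ 0 := by
  by_contra hcon
  push Not at hcon
  refine h (Polynomial.ext fun n => ?_)
  have hpos : 0 < q := Fintype.card_pos
  have h2 := congrArg (fun P : F[X] => PowerSeries.coeff (n / q) (P : PowerSeries F))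
    (hcon (n % q) (Nat.mod_lt _ hpos))
  simp only [coe_psect, coeff_sect, Polynomial.coeff_coe, coeff_zero, Nat.div_add_mod] at h2
  rw [coeff_zero, h2]

/-- A relation with non-zero first coefficient. -/
theorem exists_relation_ne_zero {f : PowerSeries F} (h : IsAlgebraic F[X] f) :
    ∃ (n : ℕ) (A : ℕ → F[X]), A 0 ≠ 0 ∧
      ∑ i ∈ Finset.range (n + 1), (A i : PowerSeries F) * f ^ q ^ i = 0 := by
  suffices hind : ∀ (n : ℕ) (A : ℕ → F[X]), (∃ i < n, A i ≠ 0) →
      ∑ i ∈ Finset.range n, (A i : PowerSeries F) * f ^ q ^ i = 0 →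
      ∃ (m : ℕ) (B : ℕ → F[X]), B 0 ≠ 0 ∧
        ∑ i ∈ Finset.range (m + 1), (B i : PowerSeries F) * f ^ q ^ i = 0 by
    obtain ⟨n, A, h1, h2⟩ := exists_relation h
    exact hind n A h1 h2
  intro n
  induction n with
  | zero => rintro A ⟨i, hi, -⟩; omega
  | succ n ih =>
    rintro A ⟨i, hi, hAi⟩ hsum
    rcases eq_or_ne (A 0) 0 with h0 | h0
    · obtain ⟨j, rfl⟩ : ∃ j, i = j + 1 := ⟨i - 1, by
        rcases Nat.eq_zero_or_pos i with rfl | hpos
        · exact absurd h0 hAi
        · omega⟩
      obtain ⟨r, hr, hne⟩ := exists_psect_ne_zero hAi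
      refine ih (fun k => psect r (A (k + 1))) ⟨j, by omega, hne⟩ ?_
      rw [Finset.sum_range_succ', h0, Polynomial.coe_zero, zero_mul, add_zero] at hsum
      have h2 := congrArg (sect r) hsum
      simp only [sect_sum, sect_zero, sect_mul_pow hr] at h2
      exact h2
    · exact ⟨n, A, h0, hsum⟩

/-- **Algebraicity gives a finite kernel.** -/
theorem finite_kernel_of_isAlgebraic {f : PowerSeries F} (h : IsAlgebraic F[X] f) :
    (kernel f).Finite := by
  classical
  obtain ⟨n, A, h0, hsum⟩ := exists_relation_ne_zero h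
  have hpos : 0 < q := Fintype.card_pos
  set N := (Finset.range (n + 1)).sup fun i => (A i).natDegree with hN
  have hA : ∀ i ≤ n, (A i).natDegree ≤ N := fun i hi =>
    Finset.le_sup (f := fun i => (A i).natDegree) (Finset.mem_range.2 (Nat.lt_succ_of_le hi))
  set S : Set (PowerSeries F) := {g | ∃ C : ℕ → F[X], (∀ i, (C i).natDegree ≤ N) ∧
    (A 0 : PowerSeries F) * g = ∑ i ∈ Finset.range (n + 1), (C i : PowerSeries F) * f ^ q ^ i}
  have hSfin : S.Finite := by
    set T : Set F[X] := {P | P.natDegree ≤ N}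
    have hT : T.Finite := by
      refine (Set.finite_range fun v : Fin (N + 1) → F => ∑ i : Fin (N + 1), monomial (i : ℕ) (v i)).subset
        fun P hP => ⟨fun i => P.coeff i, ?_⟩
      show ∑ i : Fin (N + 1), monomial (i : ℕ) (P.coeff i) = P
      rw [Fin.sum_univ_eq_sum_range (fun i => monomial i (P.coeff i))]
      exact (P.as_sum_range' (N + 1) (Nat.lt_succ_of_le hP)).symm
    haveI := hT.fintype
    have hc : ∀ g : S, ∃ v : Fin (n + 1) → T, (A 0 : PowerSeries F) * g.1 =
        ∑ i : Fin (n + 1), ((v i).1 : PowerSeries F) * f ^ q ^ (i : ℕ) := fun g => by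
      obtain ⟨C, hC, he⟩ := g.2
      exact ⟨fun i => ⟨C i, hC i⟩, by rw [he, Finset.sum_range]⟩
    choose v hv using hc
    have hinj : Function.Injective v := fun g g' e => Subtype.ext <|
      mul_left_cancel₀ (fun e0 => h0 (Polynomial.coe_eq_zero_iff.1 e0)) (by rw [hv g, hv g', e])
    exact Set.finite_coe_iff.1 (Finite.of_injective v hinj)
  refine hSfin.subset (kernel_subset (fun g hg r hr => ?_) ?_)
  · obtain ⟨C, hC, hg⟩ := hg
    set E : ℕ → F[X] := fun j => A 0 ^ (q - 2) * (A 0 * C (j + 1) - C 0 * A (j + 1))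
    refine ⟨fun j => if j < n then psect r (E j) else 0, fun j => ?_, ?_⟩
    · show (if j < n then psect r (E j) else 0).natDegree ≤ N
      split_ifs with hj
      · refine (natDegree_psect_le r _).trans ?_
        rw [Nat.div_le_iff_le_mul_add_pred hpos]
        have h1 : (E j).natDegree ≤ (q - 2) * N + (N + N) := by
          refine natDegree_mul_le.trans (add_le_add
            (natDegree_pow_le.trans (Nat.mul_le_mul_left _ (hA 0 (Nat.zero_le _)))) ?_)
          exact (natDegree_sub_le _ _).trans (max_le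
            (natDegree_mul_le.trans (add_le_add (hA 0 (Nat.zero_le _)) (hC _)))
            (natDegree_mul_le.trans (add_le_add (hC _) (hA _ hj))))
        have h2 : (q - 2) * N + (N + N) = q * N := by
          obtain ⟨t, ht⟩ : ∃ t, q = t + 2 := ⟨q - 2, by have := one_lt_card (F := F); omega⟩
          rw [ht, Nat.add_sub_cancel]; ring
        linarith [Nat.zero_le (q - 1)]
      · simp
    · -- the new coefficients
      have hq2 : (A 0 : PowerSeries F) ^ q * g =
          ∑ j ∈ Finset.range n, (E j : PowerSeries F) * f ^ q ^ (j + 1) := by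
        have e : q = q - 2 + 1 + 1 := by have := one_lt_card (F := F); omega
        rw [Finset.sum_range_succ', pow_zero, pow_one] at hsum hg
        simp only [E, Polynomial.coe_mul, Polynomial.coe_pow, Polynomial.coe_sub, mul_sub, sub_mul,
          Finset.sum_sub_distrib]
        conv_lhs => rw [e]
        simp only [mul_assoc, ← Finset.mul_sum]
        linear_combination (A 0 : PowerSeries F) ^ (q - 2) * (A 0 : PowerSeries F) * hg +
          (A 0 : PowerSeries F) ^ (q - 2) * (C 0 : PowerSeries F) * hsum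
      rw [← sect_pow_mul hr, hq2, sect_sum, Finset.sum_range_succ (n := n)]
      simp only [if_neg (lt_irrefl n), Polynomial.coe_zero, zero_mul, add_zero]
      refine Finset.sum_congr rfl fun j hj => ?_
      simp only [if_pos (Finset.mem_range.1 hj), sect_mul_pow hr]
  · refine ⟨fun i => if i = 0 then A 0 else 0, fun i => ?_, ?_⟩
    · show (if i = 0 then A 0 else 0).natDegree ≤ N
      split_ifs
      · exact hA 0 (Nat.zero_le _)
      · simp
    · rw [Finset.sum_eq_single 0
        (fun i _ hi => by simp only [if_neg hi, Polynomial.coe_zero, zero_mul])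
        (fun h => absurd (Finset.mem_range.2 n.succ_pos) h)]
      simp only [if_true, pow_zero, pow_one]

/-- **Christol's theorem.** -/
theorem christol (f : PowerSeries F) : IsAlgebraic F[X] f ↔ (kernel f).Finite :=
  ⟨finite_kernel_of_isAlgebraic, isAlgebraic_of_finite_kernel⟩

end FA.Christol
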