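import Mathlib

/-!
# Cartier's operators on power series over a finite field

With `q = #F` the operator `sect r` keeps the coefficients of index `q n + r`. As `h (X ^ q) = h ^ q`
it is semilinear: `sect r (h ^ q g) = h sect r g`, and `f = ∑ X ^ r (sect r f) ^ q`.
-/

set_option autoImplicit false

noncomputable section

open PowerSeries

namespace FA.Christol

variable {F : Type*} [Field F] [Fintype F]

local notation "q" => Fintype.card F

/-- The coefficients of index `q n + r`. -/
def sect (r : ℕ) (f : F⟦X⟧) : F⟦X⟧ := PowerSeries.mk fun n => coeff (q * n + r) f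

@[simp] theorem coeff_sect (r n : ℕ) (f : F⟦X⟧) : coeff n (sect r f) = coeff (q * n + r) f :=
  PowerSeries.coeff_mk _ _

/-- `h (X ^ q) = h ^ q`. -/
theorem coeff_pow_card (h : F⟦X⟧) (n : ℕ) :
    coeff n (h ^ q) = if q ∣ n then coeff (n / q) h else 0 := by
  have hq : 0 < q := Fintype.card_pos
  have h1 : coeff n (h ^ q) = coeff n (((trunc (n + 1) h : Polynomial F) : F⟦X⟧) ^ q) := by
    rw [← coeff_coe_trunc_of_lt (f := h ^ q) (Nat.lt_succ_self n), ← trunc_trunc_pow,
      coeff_coe_trunc_of_lt (Nat.lt_succ_self n)]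
  rw [h1, ← Polynomial.coe_pow, ← FiniteField.expand_card, Polynomial.coeff_coe,
    Polynomial.coeff_expand hq]
  split_ifs with hd
  · rw [coeff_trunc, if_pos (Nat.lt_succ_of_le (Nat.div_le_self n _))]
  · rfl

theorem sect_add (r : ℕ) (f g : F⟦X⟧) : sect r (f + g) = sect r f + sect r g := by ext n; simp

@[simp] theorem sect_zero (r : ℕ) : sect r (0 : F⟦X⟧) = 0 := by ext n; simp

theorem sect_sum {ι : Type*} (s : Finset ι) (f : ι → F⟦X⟧) (r : ℕ) :
    sect r (∑ i ∈ s, f i) = ∑ i ∈ s, sect r (f i) := by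
  classical
  induction s using Finset.induction_on with
  | empty => simp
  | insert i s hi ih => rw [Finset.sum_insert hi, Finset.sum_insert hi, sect_add, ih]

/-- **Semilinearity.** -/
theorem sect_pow_mul {r : ℕ} (hr : r < q) (h g : F⟦X⟧) : sect r (h ^ q * g) = h * sect r g := by
  have hq : 0 < q := Fintype.card_pos
  ext n
  rw [coeff_sect, coeff_mul, coeff_mul, Finset.Nat.sum_antidiagonal_eq_sum_range_succ_mk,
    Finset.Nat.sum_antidiagonal_eq_sum_range_succ_mk]
  simp only [coeff_sect, coeff_pow_card]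
  rw [← Finset.sum_subset (s₁ := (Finset.range (n + 1)).image fun j => q * j)]
  · rw [Finset.sum_image fun a _ b _ hab => Nat.eq_of_mul_eq_mul_left hq hab]
    refine Finset.sum_congr rfl fun j hj => ?_
    rw [if_pos (dvd_mul_right _ _), Nat.mul_div_cancel_left _ hq]
    congr 2
    have := Finset.mem_range.1 hj
    have := Nat.mul_le_mul_left q (Nat.le_of_lt_succ this)
    rw [Nat.mul_sub, Nat.sub_add_comm this]
  · intro i hi
    obtain ⟨j, hj, rfl⟩ := Finset.mem_image.1 hi
    have := Nat.mul_le_mul_left q (Nat.le_of_lt_succ (Finset.mem_range.1 hj))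
    exact Finset.mem_range.2 (by omega)
  · intro i hi1 hi2
    rw [if_neg, zero_mul]
    rintro ⟨j, rfl⟩
    refine hi2 (Finset.mem_image.2 ⟨j, Finset.mem_range.2 (Nat.lt_succ_of_le ?_), rfl⟩)
    have h1 : q * j < q * (n + 1) := by
      have := Finset.mem_range.1 hi1
      rw [mul_add, mul_one]
      omega
    exact Nat.le_of_lt_succ (Nat.lt_of_mul_lt_mul_left h1)

/-- The decomposition. -/
theorem eq_sum_sect (f : F⟦X⟧) :
    f = ∑ r ∈ Finset.range q, (PowerSeries.X : F⟦X⟧) ^ r * sect r f ^ q := by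
  have hq : 0 < q := Fintype.card_pos
  ext n
  rw [map_sum, Finset.sum_eq_single (n % q)]
  · rw [coeff_X_pow_mul', if_pos (Nat.mod_le _ _), coeff_pow_card,
      if_pos ⟨n / q, by have := Nat.div_add_mod n q; omega⟩, coeff_sect]
    congr 2
    have h1 := Nat.div_add_mod n q
    rw [show n - n % q = q * (n / q) by omega, Nat.mul_div_cancel_left _ hq, h1]
  · intro r hr hne
    rw [coeff_X_pow_mul', coeff_pow_card]
    split_ifs with h1 h2
    · refine absurd ?_ hne
      obtain ⟨j, hj⟩ := h2
      rw [show n = r + q * j by omega, Nat.add_mul_mod_self_left, Nat.mod_eq_of_lt (Finset.mem_range.1 hr)]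
    · rfl
    · rfl
  · exact fun h => absurd (Finset.mem_range.2 (Nat.mod_lt _ hq)) h

/-- The `q`-kernel of `f`. -/
def kernel (f : F⟦X⟧) : Set F⟦X⟧ :=
  {g | ∃ k r : ℕ, r < q ^ k ∧ g = PowerSeries.mk fun n => coeff (q ^ k * n + r) f}

theorem mem_kernel_self (f : F⟦X⟧) : f ∈ kernel f := ⟨0, 0, by simp, by ext n; simp⟩

theorem sect_mem_kernel {f g : F⟦X⟧} (hg : g ∈ kernel f) {r : ℕ} (hr : r < q) :
    sect r g ∈ kernel f := by
  obtain ⟨k, s, hs, rfl⟩ := hg
  refine ⟨k + 1, q ^ k * r + s, ?_, ?_⟩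
  · have := Nat.mul_le_mul_left (q ^ k) (Nat.succ_le_of_lt hr)
    rw [Nat.mul_succ] at this
    rw [pow_succ]
    omega
  · ext n
    simp only [coeff_sect, PowerSeries.coeff_mk]
    congr 2
    ring

/-- A set closed under `sect` contains the kernel of each of its members. -/
theorem kernel_subset {S : Set F⟦X⟧} (hS : ∀ g ∈ S, ∀ r < q, sect r g ∈ S) {f : F⟦X⟧}
    (hf : f ∈ S) : kernel f ⊆ S := by
  rintro g ⟨k, r, hr, rfl⟩
  induction k generalizing r with
  | zero =>
    rw [pow_zero, Nat.lt_one_iff] at hr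
    subst hr
    convert hf using 1
    ext n; simp
  | succ k ih =>
    have hpos : 0 < q ^ k := pow_pos Fintype.card_pos _
    have h1 : r / q ^ k < q := Nat.div_lt_of_lt_mul (by rwa [← pow_succ])
    convert hS _ (ih (r % q ^ k) (Nat.mod_lt _ hpos)) _ h1 using 1
    ext n
    simp only [coeff_sect, PowerSeries.coeff_mk]
    congr 2
    have := Nat.div_add_mod r (q ^ k)
    rw [mul_add, add_assoc, this]
    ring

end FA.Christol
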